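import Fermat.Agent.S48.H.Basic
import Fermat.Agent.S23.Nice
import Fermat.Prelude.Def_ModularForm_HeckeOperatorForms
import Fermat.Prelude.Thm_UpperHalfPlane_qCoeff_heckeT
import Fermat.Prelude.Thm_UpperHalfPlane_qCoeff_heckeU
import Fermat.Prelude.Thm_ModularForm_periodic_heckeT_comp_ofComplex
import Fermat.Prelude.Thm_ModularForm_periodic_heckeU_comp_ofComplex
import Fermat.Prelude.Thm_ModularForm_isBoundedAtImInfty_heckeT
import Fermat.Prelude.Thm_ModularForm_isBoundedAtImInfty_heckeU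
import Fermat.Prelude.Thm_ModularForm_mdifferentiable_heckeT
import Fermat.Prelude.Thm_ModularForm_mdifferentiable_heckeU

/-!
# S48 / H : `U_p` and `V_p` on nice functions (function level)

`U_p f = heckeU k p f`, `p^(k-1) V_p f = f ∣[k] heckeDiagMatrix p`.
-/

set_option autoImplicit false

namespace Fermat.Agent.S48.H

open UpperHalfPlane ModularForm
open Fermat.Agent.S23 (Nice qe)
open scoped MatrixGroups Manifold

theorem nice_heckeU {f : ℍ → ℂ} (hf : Nice f) (k : ℤ) (p : ℕ) : Nice (heckeU k p f) :=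
  ⟨periodic_heckeU_comp_ofComplex hf.per k p, mdifferentiable_heckeU hf.hol k p,
    isBoundedAtImInfty_heckeU hf.bdd k p⟩

theorem nice_heckeT {f : ℍ → ℂ} (hf : Nice f) (k : ℤ) (p : ℕ) : Nice (heckeT k p f) :=
  ⟨periodic_heckeT_comp_ofComplex hf.per k p, mdifferentiable_heckeT hf.hol k p,
    isBoundedAtImInfty_heckeT hf.bdd k p⟩

theorem nice_slash_diag {f : ℍ → ℂ} (hf : Nice f) (k : ℤ) (p : ℕ) :
    Nice (f ∣[k] heckeDiagMatrix p) := by
  have h : f ∣[k] heckeDiagMatrix p = heckeT k p f + (-1 : ℂ) • heckeU k p f := by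
    rw [heckeT_eq_heckeU_add]
    ext τ
    simp
  rw [h]
  exact (nice_heckeT hf k p).add ((nice_heckeU hf k p).smul _)

theorem qCoeff_heckeU {f : ℍ → ℂ} (hf : Nice f) (k : ℤ) {p : ℕ} (hp : p ≠ 0) (n : ℕ) :
    ModularFormClass.qCoeff (heckeU k p f) n = ModularFormClass.qCoeff f (p * n) := by
  rw [UpperHalfPlane.qCoeff_heckeU hf.per hf.hol hf.bdd k hp n, coeffHeckeU_apply, mul_comm]

theorem qCoeff_slash_diag {f : ℍ → ℂ} (hf : Nice f) (k : ℤ) {p : ℕ} (hp : p ≠ 0) (n : ℕ) :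
    ModularFormClass.qCoeff (f ∣[k] heckeDiagMatrix p) n
      = if p ∣ n then (p : ℂ) ^ (k - 1) * ModularFormClass.qCoeff f (n / p) else 0 := by
  have h1 : qe (heckeT k p f) = qe (heckeU k p f) + qe (f ∣[k] heckeDiagMatrix p) := by
    rw [heckeT_eq_heckeU_add]
    exact (nice_heckeU hf k p).qe_add (nice_slash_diag hf k p)
  have h2 : ModularFormClass.qCoeff (heckeT k p f) n =
      ModularFormClass.qCoeff (heckeU k p f) n +
        ModularFormClass.qCoeff (f ∣[k] heckeDiagMatrix p) n := by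
    have := congrArg (fun P : PowerSeries ℂ => P.coeff n) h1
    simpa [ModularFormClass.qCoeff, qe] using this
  rw [UpperHalfPlane.qCoeff_heckeT hf.per hf.hol hf.bdd k hp n,
    UpperHalfPlane.qCoeff_heckeU hf.per hf.hol hf.bdd k hp n,
    coeffHeckeT_eq_coeffHeckeU_add] at h2
  exact (add_left_cancel h2).symm

/-- `f ↦ f ∣[k] diag(p,1)` is injective. -/
theorem slash_diag_injective (k : ℤ) (p : ℕ) :
    Function.Injective (fun f : ℍ → ℂ => f ∣[k] heckeDiagMatrix p) := by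
  intro f g h
  have := congrArg (fun F : ℍ → ℂ => F ∣[k] (heckeDiagMatrix p)⁻¹) h
  simpa [← SlashAction.slash_mul] using this

/-- `U_p (f ∣ diag(p,1)) = p^(k-1) f`. -/
theorem heckeU_slash_diag {f : ℍ → ℂ} (hf : Nice f) (k : ℤ) {p : ℕ} (hp : p ≠ 0) :
    heckeU k p (f ∣[k] heckeDiagMatrix p) = ((p : ℂ) ^ (k - 1)) • f := by
  have hp' : (p : ℂ) ≠ 0 := by exact_mod_cast hp
  ext τ
  rw [heckeU_apply k hp, Pi.smul_apply, smul_eq_mul]
  have h1 : ∀ j ∈ Finset.range p, (f ∣[k] heckeDiagMatrix p) (heckeMatrix p j • τ) =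
      (p : ℂ) ^ (k - 1) * f τ := by
    intro j _
    rw [slash_heckeDiagMatrix_apply k hp]
    congr 1
    have h2 : ((heckeDiagMatrix p • (heckeMatrix p j • τ) : ℍ) : ℂ) = (τ : ℂ) + j := by
      rw [coe_heckeDiagMatrix_smul hp, coe_heckeMatrix_smul hp]
      field_simp
    have h3 := (hf.per.nat_mul j) (τ : ℂ)
    simp only [Function.comp_apply, mul_one] at h3
    rw [ofComplex_apply] at h3
    rw [← h3, ← h2, ofComplex_apply]
  rw [Finset.sum_congr rfl h1, Finset.sum_const, Finset.card_range, nsmul_eq_mul]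
  field_simp

end Fermat.Agent.S48.H
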