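import Fermat.Agent.S48.H.Coset
import Fermat.Agent.S48.H.VOp

/-!
# S48 / H : the Hecke operators `T_p` (`p ∤ M`) on `S_k(Γ₁(M))`

`T_p f = U_p f + (⟨p⟩ f) ∣[k] diag(p,1)`, i.e.
`(T_p f)(τ) = (1/p) ∑_{j<p} f((τ+j)/p) + p^(k-1) (⟨p⟩f)(pτ)`.
-/

set_option autoImplicit false

namespace Fermat.Agent.S48.H

open UpperHalfPlane ModularForm Matrix.SpecialLinearGroup CongruenceSubgroup
open Fermat.Agent.S23 (Nice qe)
open scoped MatrixGroups Manifold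

/-- The class of a prime `p ∤ M` in `(ℤ/M)ˣ`. -/
noncomputable def pUnit {M p : ℕ} (hp : p.Prime) (hpM : ¬ p ∣ M) : (ZMod M)ˣ :=
  ZMod.unitOfCoprime p ((Nat.Prime.coprime_iff_not_dvd hp).2 hpM)

@[simp] theorem coe_pUnit {M p : ℕ} (hp : p.Prime) (hpM : ¬ p ∣ M) :
    ((pUnit hp hpM : (ZMod M)ˣ) : ZMod M) = p := rfl

theorem slash_eq_self_of_mem_Gamma1 {M : ℕ} {k : ℤ} (f : CuspForm (Gamma1 M) k) :
    ∀ δ ∈ Gamma1 M, ⇑f ∣[k] (mapGL ℝ δ) = ⇑f := fun _ hδ =>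
  SlashInvariantFormClass.slash_action_eq f _ (Subgroup.mem_map_of_mem (mapGL ℝ) hδ)

theorem heckeFun_diaMat {M p : ℕ} [NeZero M] (k : ℤ) (hp : p.Prime) (hpM : ¬ p ∣ M)
    (f : CuspForm (Gamma1 M) k) :
    heckeU k p ⇑f + ⇑(diamond k (pUnit hp hpM) f) ∣[k] heckeDiagMatrix p
      = heckeFun k p (diaMat M (pUnit hp hpM)) ⇑f := by
  rw [heckeFun, coe_diamond k _ f (diaMat_dvd M _) (diaMat_lowerRight M _)]

theorem heckeT_slash_aux {M p : ℕ} [NeZero M] (k : ℤ) (hp : p.Prime) (hpM : ¬ p ∣ M)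
    (f : CuspForm (Gamma1 M) k) (γ : GL (Fin 2) ℝ) (hγ : γ ∈ G1 M) :
    (heckeU k p ⇑f + ⇑(diamond k (pUnit hp hpM) f) ∣[k] heckeDiagMatrix p) ∣[k] γ
      = heckeU k p ⇑f + ⇑(diamond k (pUnit hp hpM) f) ∣[k] heckeDiagMatrix p := by
  obtain ⟨δ, hδ, rfl⟩ := hγ
  have hδ0 : (M : ℤ) ∣ δ 1 0 :=
    (ZMod.intCast_zmod_eq_zero_iff_dvd _ _).mp ((Gamma1_mem M δ).mp hδ).2.2
  rw [heckeFun_diaMat, heckeFun_slash hp hpM k (slash_eq_self_of_mem_Gamma1 f) (diaMat_dvd M _)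
    (by rw [diaMat_lowerRight]; rfl) hδ0, slash_eq_self_of_mem_Gamma1 f δ hδ]

theorem isZeroAt_slash_diag {M : ℕ} [NeZero M] {k : ℤ} (g : CuspForm (Gamma1 M) k) (p : ℕ)
    {c : OnePoint ℝ} (hc : IsCusp c (G1 M)) :
    OnePoint.IsZeroAt c (⇑g ∣[k] heckeDiagMatrix p) k := by
  have h1 := CuspFormClass.isZeroAt_heckeT g p hc
  have h2 := CuspFormClass.isZeroAt_heckeU (-g) p hc
  have h3 : ⇑g ∣[k] heckeDiagMatrix p = ModularForm.heckeT k p ⇑g + heckeU k p ⇑(-g) := by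
    rw [heckeT_eq_heckeU_add, FunLike.coe_neg, heckeU_neg]
    abel
  rw [h3]
  exact h1.add h2

/-- The Hecke operator `T_p` on `S_k(Γ₁(M))`, `p ∤ M`. -/
noncomputable def heckeT {M p : ℕ} [NeZero M] (k : ℤ) (hp : p.Prime) (hpM : ¬ p ∣ M) :
    CuspForm (Gamma1 M) k →ₗ[ℂ] CuspForm (Gamma1 M) k where
  toFun f :=
    { toFun := heckeU k p ⇑f + ⇑(diamond k (pUnit hp hpM) f) ∣[k] heckeDiagMatrix p
      slash_action_eq' := heckeT_slash_aux k hp hpM f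
      holo' := (mdifferentiable_heckeU (CuspFormClass.holo f) k p).add
        ((CuspFormClass.holo (diamond k (pUnit hp hpM) f)).slash k _)
      zero_at_cusps' := fun hc =>
        (CuspFormClass.isZeroAt_heckeU f p hc).add (isZeroAt_slash_diag _ p hc) }
  map_add' f g := DFunLike.coe_injective <| by
    show heckeU k p ⇑(f + g) + ⇑(diamond k (pUnit hp hpM) (f + g)) ∣[k] heckeDiagMatrix p
      = (heckeU k p ⇑f + ⇑(diamond k (pUnit hp hpM) f) ∣[k] heckeDiagMatrix p)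
        + (heckeU k p ⇑g + ⇑(diamond k (pUnit hp hpM) g) ∣[k] heckeDiagMatrix p)
    rw [map_add, FunLike.coe_add, FunLike.coe_add, heckeU_add, SlashAction.add_slash]
    abel
  map_smul' c f := DFunLike.coe_injective <| by
    show heckeU k p ⇑(c • f) + ⇑(diamond k (pUnit hp hpM) (c • f)) ∣[k] heckeDiagMatrix p
      = c • (heckeU k p ⇑f + ⇑(diamond k (pUnit hp hpM) f) ∣[k] heckeDiagMatrix p)
    rw [map_smul, FunLike.coe_smul, FunLike.coe_smul, heckeU_smul, ModularForm.smul_slash,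
      σ_heckeDiagMatrix, ContinuousAlgEquiv.refl_apply, smul_add]

/-- **Definition unfolded.** -/
theorem coe_heckeT {M p : ℕ} [NeZero M] (k : ℤ) (hp : p.Prime) (hpM : ¬ p ∣ M)
    (f : CuspForm (Gamma1 M) k) :
    ⇑(heckeT k hp hpM f)
      = heckeU k p ⇑f + ⇑(diamond k (pUnit hp hpM) f) ∣[k] heckeDiagMatrix p := rfl

theorem heckeT_apply {M p : ℕ} [NeZero M] (k : ℤ) (hp : p.Prime) (hpM : ¬ p ∣ M)
    (f : CuspForm (Gamma1 M) k) (τ : ℍ) :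
    heckeT k hp hpM f τ = (p : ℂ)⁻¹ * ∑ j ∈ Finset.range p, f (heckeMatrix p j • τ)
      + (p : ℂ) ^ (k - 1) * diamond k (pUnit hp hpM) f (heckeDiagMatrix p • τ) := by
  rw [coe_heckeT, Pi.add_apply, heckeU_apply k hp.ne_zero, slash_heckeDiagMatrix_apply k hp.ne_zero]

/-- **`q`-expansion of `T_p f`.** -/
theorem qCoeff_heckeT {M p : ℕ} [NeZero M] (k : ℤ) (hp : p.Prime) (hpM : ¬ p ∣ M)
    (f : CuspForm (Gamma1 M) k) (n : ℕ) :
    ModularFormClass.qCoeff (heckeT k hp hpM f) n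
      = ModularFormClass.qCoeff f (p * n)
        + if p ∣ n then (p : ℂ) ^ (k - 1) *
            ModularFormClass.qCoeff (diamond k (pUnit hp hpM) f) (n / p) else 0 := by
  have h1 : Nice (heckeU k p ⇑f) := nice_heckeU (nice f) k p
  have h2 : Nice (⇑(diamond k (pUnit hp hpM) f) ∣[k] heckeDiagMatrix p) :=
    nice_slash_diag (nice _) k p
  rw [coe_heckeT]
  have h3 := congrArg (fun P : PowerSeries ℂ => P.coeff n) (h1.qe_add h2)
  simp only [map_add] at h3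
  have h4 := qCoeff_heckeU (nice f) k hp.ne_zero n
  have h5 := qCoeff_slash_diag (nice (diamond k (pUnit hp hpM) f)) k hp.ne_zero n
  unfold ModularFormClass.qCoeff at h4 h5 ⊢
  rw [← h4, ← h5]
  exact h3

/-- `T_p` commutes with the diamond operators. -/
theorem diamond_heckeT {M p : ℕ} [NeZero M] (k : ℤ) (hp : p.Prime) (hpM : ¬ p ∣ M)
    (d : (ZMod M)ˣ) (f : CuspForm (Gamma1 M) k) :
    diamond k d (heckeT k hp hpM f) = heckeT k hp hpM (diamond k d f) := by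
  apply DFunLike.coe_injective
  rw [coe_diamond k d _ (diaMat_dvd M d) (diaMat_lowerRight M d), coe_heckeT, coe_heckeT,
    heckeFun_diaMat, heckeFun_diaMat,
    heckeFun_slash hp hpM k (slash_eq_self_of_mem_Gamma1 f) (diaMat_dvd M _)
      (by rw [diaMat_lowerRight]; rfl) (diaMat_dvd M d),
    coe_diamond k d f (diaMat_dvd M d) (diaMat_lowerRight M d)]

/-- The `T_p` commute. -/
theorem heckeT_comm {M p q : ℕ} [NeZero M] (k : ℤ) (hp : p.Prime) (hpM : ¬ p ∣ M)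
    (hq : q.Prime) (hqM : ¬ q ∣ M) (f : CuspForm (Gamma1 M) k) :
    heckeT k hp hpM (heckeT k hq hqM f) = heckeT k hq hqM (heckeT k hp hpM f) := by
  by_cases hpq : p = q
  · subst hpq; rfl
  have hcop : Nat.Coprime p q := (Nat.coprime_primes hp hq).2 hpq
  apply ext_qCoeff
  intro n
  rw [qCoeff_heckeT k hp hpM (heckeT k hq hqM f), qCoeff_heckeT k hq hqM f, diamond_heckeT,
    qCoeff_heckeT k hq hqM (diamond k (pUnit hp hpM) f),
    qCoeff_heckeT k hq hqM (heckeT k hp hpM f), qCoeff_heckeT k hp hpM f, diamond_heckeT,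
    qCoeff_heckeT k hp hpM (diamond k (pUnit hq hqM) f),
    diamond_comm k (pUnit hp hpM) (pUnit hq hqM)]
  have h1 : q ∣ p * n ↔ q ∣ n := Nat.Coprime.dvd_mul_left hcop.symm
  have h2 : p ∣ q * n ↔ p ∣ n := Nat.Coprime.dvd_mul_left hcop
  have e3 : p ∣ n → (q ∣ n / p ↔ q ∣ n) := by
    rintro ⟨m, rfl⟩
    rw [Nat.mul_div_cancel_left _ hp.pos, Nat.Coprime.dvd_mul_left hcop.symm]
  have e4 : q ∣ n → (p ∣ n / q ↔ p ∣ n) := by
    rintro ⟨m, rfl⟩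
    rw [Nat.mul_div_cancel_left _ hq.pos, Nat.Coprime.dvd_mul_left hcop]
  have e5 : n / p / q = n / q / p := by
    rw [Nat.div_div_eq_div_mul, Nat.div_div_eq_div_mul, mul_comm]
  have e6 : q * (p * n) = p * (q * n) := by ring
  rw [e5, e6]
  by_cases hpn : p ∣ n <;> by_cases hqn : q ∣ n
  · rw [if_pos (h1.2 hqn), if_pos hpn, if_pos ((e3 hpn).2 hqn), if_pos (h2.2 hpn), if_pos hqn,
      if_pos ((e4 hqn).2 hpn), Nat.mul_div_assoc p hqn, Nat.mul_div_assoc q hpn]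
    ring
  · rw [if_neg (fun h => hqn (h1.1 h)), if_pos hpn, if_neg (fun h => hqn ((e3 hpn).1 h)),
      if_pos (h2.2 hpn), if_neg hqn, Nat.mul_div_assoc q hpn]
    ring
  · rw [if_pos (h1.2 hqn), if_neg hpn, if_neg (fun h => hpn (h2.1 h)), if_pos hqn,
      if_neg (fun h => hpn ((e4 hqn).1 h)), Nat.mul_div_assoc p hqn]
    ring
  · rw [if_neg (fun h => hqn (h1.1 h)), if_neg hpn, if_neg (fun h => hpn (h2.1 h)), if_neg hqn]

theorem mapGL_entry (g : SL(2, ℤ)) (i j : Fin 2) :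
    ((mapGL ℝ g : GL (Fin 2) ℝ) : Matrix (Fin 2) (Fin 2) ℝ) i j = ((g i j : ℤ) : ℝ) := by
  simp

/-- `diag(p,1) γ = γ' diag(p,1)` if `p ∣ γ₁₀`. -/
theorem diag_mul_of_dvd {p : ℕ} (hp : p ≠ 0) (g : SL(2, ℤ)) (e : ℤ) (he : g 1 0 = p * e) :
    ∃ g' : SL(2, ℤ), g' 1 0 = e ∧ g' 1 1 = g 1 1 ∧
      heckeDiagMatrix p * mapGL ℝ g = mapGL ℝ g' * heckeDiagMatrix p := by
  have hdet : g 0 0 * g 1 1 - g 0 1 * g 1 0 = 1 := by
    have h := g.det_coe
    rwa [Matrix.det_fin_two] at h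
  have hd : (!![g 0 0, p * g 0 1; e, g 1 1] : Matrix (Fin 2) (Fin 2) ℤ).det = 1 := by
    rw [Matrix.det_fin_two_of]
    linear_combination hdet + (g 0 1) * he
  obtain ⟨g', h00, h01, h10, h11⟩ : ∃ g' : SL(2, ℤ), g' 0 0 = g 0 0 ∧ g' 0 1 = p * g 0 1 ∧
      g' 1 0 = e ∧ g' 1 1 = g 1 1 := ⟨⟨!![g 0 0, p * g 0 1; e, g 1 1], hd⟩, rfl, rfl, rfl, rfl⟩
  refine ⟨g', h10, h11, ?_⟩
  have he' := congrArg (Int.cast : ℤ → ℝ) he
  push_cast at he'
  ext i j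
  rw [Units.val_mul, Units.val_mul, val_heckeDiagMatrix hp, Matrix.mul_apply, Matrix.mul_apply,
    Fin.sum_univ_two, Fin.sum_univ_two]
  simp only [mapGL_entry]
  fin_cases i <;> fin_cases j <;> simp [h00, h01, h10, h11] <;> linarith

/-- `⟨d⟩` commutes with `V_p` (function level): if `g = f ∣ diag(p,1)` is again in `S_k(Γ₁(M))`
then `⟨d⟩ g = (⟨d⟩ f) ∣ diag(p,1)`. -/
theorem diamond_slash_diag {M p : ℕ} [NeZero M] (k : ℤ) (hp : p.Prime) (_hpM : ¬ p ∣ M)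
    (d : (ZMod M)ˣ) (f g : CuspForm (Gamma1 M) k) (hg : ⇑g = ⇑f ∣[k] heckeDiagMatrix p) :
    ⇑(diamond k d g) = ⇑(diamond k d f) ∣[k] heckeDiagMatrix p := by
  obtain ⟨γ, hγ, hγd⟩ := exists_gamma0 M d p hp.ne_zero
  obtain ⟨e, he⟩ := hγ
  have hM : (M : ℤ) ∣ γ 1 0 := ⟨p * e, by rw [he]; push_cast; ring⟩
  obtain ⟨γ', h10, h11, hmul⟩ := diag_mul_of_dvd hp.ne_zero γ (M * e) (by rw [he]; push_cast; ring)
  have hM' : (M : ℤ) ∣ γ' 1 0 := ⟨e, h10⟩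
  rw [coe_diamond k d g hM hγd, coe_diamond k d f hM' (by rw [h11]; exact hγd), hg,
    ← SlashAction.slash_mul, hmul, SlashAction.slash_mul]

end Fermat.Agent.S48.H
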