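import Mathlib
import Fermat.Agent.S23.Nice
import Fermat.Prelude.Def_FLTPrelim_Modularity
import Fermat.Prelude.Thm_ModularForm_sturm_bound_of_isArithmetic

/-!
# S48 / H : basic tools for cusp forms on `Γ₁(M)`

* `slashTo k g` : `f ↦ f ∣[k] g` as a linear map `CuspForm Γ k → CuspForm Γ' k` when
  `g Γ' g⁻¹ ≤ Γ` and `det g > 0`;
* `q`-expansions of cusp forms on `Γ₁(M)`: niceness, linearity, extensionality;
* finite dimensionality of `CuspForm (Gamma1 M) k`.
-/

set_option autoImplicit false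

namespace Fermat.Agent.S48.H

open UpperHalfPlane ModularForm Matrix.SpecialLinearGroup CongruenceSubgroup
open Fermat.Agent.S23 (Nice qe)
open scoped MatrixGroups Manifold

/-- `Γ₁(M)` as a subgroup of `GL₂(ℝ)` (this is what the coercion in `CuspForm (Gamma1 M) k`
unfolds to). -/
abbrev G1 (M : ℕ) : Subgroup (GL (Fin 2) ℝ) :=
  Subgroup.map (mapGL ℝ) (Gamma1 M)

/-- `f ↦ f ∣[k] g` as a linear map `CuspForm Γ k → CuspForm Γ' k`, if `g Γ' g⁻¹ ≤ Γ`. -/
noncomputable def slashTo {Γ Γ' : Subgroup (GL (Fin 2) ℝ)} [Γ.HasDetOne] [Γ'.HasDetOne] (k : ℤ)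
    (g : GL (Fin 2) ℝ) (hg : 0 < g.det.val) (h : ∀ γ ∈ Γ', g * γ * g⁻¹ ∈ Γ) :
    CuspForm Γ k →ₗ[ℂ] CuspForm Γ' k where
  toFun f :=
    { toFun := ⇑f ∣[k] g
      slash_action_eq' := fun γ hγ => by
        have e : g * γ = (g * γ * g⁻¹) * g := by group
        rw [← SlashAction.slash_mul, e, SlashAction.slash_mul,
          SlashInvariantFormClass.slash_action_eq f _ (h γ hγ)]
      holo' := (CuspFormClass.holo f).slash k g
      zero_at_cusps' := fun {c} hc => by
        rw [← OnePoint.IsZeroAt.smul_iff]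
        refine CuspFormClass.zero_at_cusps f (IsCusp.mono ?_ (hc.smul g))
        intro x hx
        obtain ⟨γ, hγ, rfl⟩ := Subgroup.mem_pointwise_smul_iff_inv_smul_mem.1 hx |> fun h' =>
          (⟨_, h', by simp⟩ : ∃ γ, γ ∈ Γ' ∧ ConjAct.toConjAct g • γ = x)
        rw [ConjAct.toConjAct_smul]
        exact h γ hγ }
  map_add' f f' := by
    apply DFunLike.coe_injective
    exact SlashAction.add_slash k g (⇑f) (⇑f')
  map_smul' c f := by
    apply DFunLike.coe_injective
    change (c • ⇑f) ∣[k] g = c • (⇑f ∣[k] g)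
    rw [ModularForm.smul_slash]
    congr 1
    have hg' : 0 < (g : Matrix (Fin 2) (Fin 2) ℝ).det := hg
    simp [UpperHalfPlane.σ, hg']

@[simp] theorem coe_slashTo {Γ Γ' : Subgroup (GL (Fin 2) ℝ)} [Γ.HasDetOne] [Γ'.HasDetOne] (k : ℤ)
    (g : GL (Fin 2) ℝ) (hg : 0 < g.det.val) (h : ∀ γ ∈ Γ', g * γ * g⁻¹ ∈ Γ) (f : CuspForm Γ k) :
    ⇑(slashTo k g hg h f) = ⇑f ∣[k] g := rfl

theorem one_mem_strictPeriods_G1 (M : ℕ) : (1 : ℝ) ∈ (G1 M).strictPeriods := by
  rw [CongruenceSubgroup.strictPeriods_Gamma1]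
  exact AddSubgroup.mem_zmultiples 1

theorem nice {M : ℕ} {k : ℤ} (f : CuspForm (Gamma1 M) k) : Nice (⇑f) := by
  have hΓ := one_mem_strictPeriods_G1 M
  have : Fact (IsCusp OnePoint.infty (G1 M)) := ⟨Subgroup.isCusp_of_mem_strictPeriods one_pos hΓ⟩
  exact ⟨SlashInvariantFormClass.periodic_comp_ofComplex f hΓ, ModularFormClass.holo f,
    ModularFormClass.bdd_at_infty f⟩

theorem qCoeff_zero {M : ℕ} {k : ℤ} (f : CuspForm (Gamma1 M) k) :
    ModularFormClass.qCoeff f 0 = 0 :=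
  CuspFormClass.qExpansion_coeff_zero f one_pos (one_mem_strictPeriods_G1 M)

theorem qCoeff_add {M : ℕ} {k : ℤ} (f g : CuspForm (Gamma1 M) k) (n : ℕ) :
    ModularFormClass.qCoeff (⇑(f + g)) n
      = ModularFormClass.qCoeff f n + ModularFormClass.qCoeff g n := by
  unfold ModularFormClass.qCoeff
  have e : (⇑(f + g) : ℍ → ℂ) = ⇑f + ⇑g := rfl
  rw [e]
  have := (nice f).qe_add (nice g)
  unfold qe at this
  rw [this, map_add]

theorem qCoeff_smul {M : ℕ} {k : ℤ} (c : ℂ) (f : CuspForm (Gamma1 M) k) (n : ℕ) :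
    ModularFormClass.qCoeff (⇑(c • f)) n = c * ModularFormClass.qCoeff f n := by
  unfold ModularFormClass.qCoeff
  have e : (⇑(c • f) : ℍ → ℂ) = c • ⇑f := rfl
  rw [e]
  have := (nice f).qe_smul c
  unfold qe at this
  rw [this, PowerSeries.coeff_smul, smul_eq_mul]

theorem ext_qCoeff {M : ℕ} {k : ℤ} {f g : CuspForm (Gamma1 M) k}
    (h : ∀ n : ℕ, ModularFormClass.qCoeff f n = ModularFormClass.qCoeff g n) : f = g := by
  rw [← sub_eq_zero]
  have h0 : qe (⇑(f - g)) = 0 := by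
    ext n
    have e : f - g = f + (-1 : ℂ) • g := by rw [neg_one_smul, sub_eq_add_neg]
    have h1 := qCoeff_add f ((-1 : ℂ) • g) n
    rw [qCoeff_smul, h n] at h1
    rw [e]
    change ModularFormClass.qCoeff (⇑(f + (-1 : ℂ) • g)) n = _
    rw [h1]
    simp
  exact DFunLike.coe_injective ((nice (f - g)).qe_eq_zero_iff.1 h0)

/-- **Sturm bound** (from the Prelude's `ModularForm.sturm_bound_of_isArithmetic`). -/
theorem exists_sturm (M : ℕ) [NeZero M] (k : ℤ) :
    ∃ B : ℕ, ∀ f : CuspForm (Gamma1 M) k, (∀ n ≤ B, ModularFormClass.qCoeff f n = 0) → f = 0 := by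
  refine ⟨(k * (G1 M).relIndex 𝒮ℒ).toNat / 12, fun f hf => ?_⟩
  have hmf : (ModularFormClass.modularForm f : ModularForm (Gamma1 M) k) = 0 := by
    refine ModularForm.sturm_bound_of_isArithmetic (one_mem_strictPeriods_G1 M) ?_
    by_contra hlt
    rw [not_lt] at hlt
    have hne : (qExpansion 1 (ModularFormClass.modularForm f : ModularForm (Gamma1 M) k)) ≠ 0 := by
      intro h0
      rw [h0, PowerSeries.order_zero] at hlt
      exact absurd hlt (by simp)
    obtain ⟨n, hn⟩ : ∃ n : ℕ, (qExpansion 1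
        (ModularFormClass.modularForm f : ModularForm (Gamma1 M) k)).order = n :=
      ⟨_, (PowerSeries.coe_toNat_order hne).symm⟩
    rw [hn] at hlt
    have hn' : n ≤ (k * (G1 M).relIndex 𝒮ℒ).toNat / 12 := by
      exact_mod_cast hlt
    have h1 := PowerSeries.coeff_order hne
    rw [hn] at h1
    exact h1 (hf n hn')
  have hcoe : (⇑f : ℍ → ℂ) = 0 := by
    have := congrArg (fun F : ModularForm (Gamma1 M) k => (⇑F : ℍ → ℂ)) hmf
    simpa using this
  exact DFunLike.coe_injective hcoe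

theorem finiteDimensional (M : ℕ) [NeZero M] (k : ℤ) :
    FiniteDimensional ℂ (CuspForm (Gamma1 M) k) := by
  obtain ⟨B, hB⟩ := exists_sturm M k
  let T : CuspForm (Gamma1 M) k →ₗ[ℂ] (Fin (B + 1) → ℂ) :=
    { toFun := fun f i => ModularFormClass.qCoeff f (i : ℕ)
      map_add' := fun f g => funext fun i => qCoeff_add f g i
      map_smul' := fun c f => funext fun i => qCoeff_smul c f i }
  have hT : Function.Injective T := by
    refine (injective_iff_map_eq_zero _).mpr fun f hf => hB f fun n hn => ?_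
    exact congrFun hf ⟨n, Nat.lt_succ_of_le hn⟩
  exact FiniteDimensional.of_injective T hT

theorem Gamma1_le_of_dvd {N M : ℕ} (h : N ∣ M) : Gamma1 M ≤ Gamma1 N := by
  intro A hA
  rw [Gamma1_mem] at hA ⊢
  have key : ∀ x y : ℤ, ((x : ZMod M) = (y : ZMod M)) → ((x : ZMod N) = (y : ZMod N)) := by
    intro x y hxy
    rw [ZMod.intCast_eq_intCast_iff_dvd_sub] at hxy ⊢
    exact (Int.natCast_dvd_natCast.2 h).trans hxy
  obtain ⟨h1, h2, h3⟩ := hA
  refine ⟨?_, ?_, ?_⟩
  · have := key _ 1 (by simpa using h1)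
    simpa using this
  · have := key _ 1 (by simpa using h2)
    simpa using this
  · have := key _ 0 (by simpa using h3)
    simpa using this

/-- Raising the level. -/
noncomputable def levelUp {N M : ℕ} (h : N ∣ M) (k : ℤ) :
    CuspForm (Gamma1 N) k →ₗ[ℂ] CuspForm (Gamma1 M) k :=
  slashTo k 1 (by simp) (by
    intro γ hγ
    rw [one_mul, inv_one, mul_one]
    exact Subgroup.map_mono (Gamma1_le_of_dvd h) hγ)

@[simp] theorem coe_levelUp {N M : ℕ} (h : N ∣ M) (k : ℤ) (f : CuspForm (Gamma1 N) k) :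
    ⇑(levelUp h k f) = ⇑f := by
  unfold levelUp
  rw [coe_slashTo, SlashAction.slash_one]

end Fermat.Agent.S48.H
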