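import Fermat.Agent.S48.H.Diamond
import Fermat.Prelude.Def_ModularForm_HeckeOperatorForms

/-!
# S48 / H : the coset computation for `T_p` on `Γ₁(M)`

Strengthening of the Prelude's `heckeRep_mul` (file
`Fermat/Prelude/Sol/S_ModularForm_heckeT_slash_eq_self_of_mem_Gamma0.lean`): we also record the
lower right entry of the new matrix.  We reuse the Prelude's `heckeRep`, `redMatrix`.
-/

set_option autoImplicit false

namespace Fermat.Agent.S48.H

open UpperHalfPlane ModularForm Matrix.SpecialLinearGroup CongruenceSubgroup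
open P2MW.S_ModularForm_heckeT_slash_eq_self_of_mem_Gamma0.ModularForm.HeckeSlashInvariance
open scoped MatrixGroups Manifold OnePoint

/-- The "nebentypus weight" of a coset representative: `p` at `∞`, `1` elsewhere. -/
def wt (M p : ℕ) (x : OnePoint (ZMod p)) : ZMod M :=
  x.elim (p : ZMod M) (fun _ => 1)

@[simp] theorem wt_infty (M p : ℕ) : wt M p ∞ = (p : ZMod M) := rfl

@[simp] theorem wt_coe (M p : ℕ) (j : ZMod p) : wt M p (j : OnePoint (ZMod p)) = 1 := rfl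

namespace Coset

section commutation

variable {p : ℕ} (hp : p ≠ 0)
include hp

theorem heckeMatrix_mul_of_eq (g : SL(2, ℤ)) (j j' : ℕ) (e : ℤ)
    (he : g 0 1 + j * g 1 1 = j' * (g 0 0 + j * g 1 0) + p * e) :
    ∃ g' : SL(2, ℤ), g' 1 0 = p * g 1 0 ∧ g' 1 1 = g 1 1 - g 1 0 * j' ∧
      heckeMatrix p j * mapGL ℝ g = mapGL ℝ g' * heckeMatrix p j' := by
  have hdet := det_eq g
  obtain ⟨g', h00, h01, h10, h11⟩ : ∃ g' : SL(2, ℤ), g' 0 0 = g 0 0 + j * g 1 0 ∧ g' 0 1 = e ∧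
      g' 1 0 = p * g 1 0 ∧ g' 1 1 = g 1 1 - g 1 0 * j' :=
    ⟨⟨!![g 0 0 + j * g 1 0, e; p * g 1 0, g 1 1 - g 1 0 * j'], by
      rw [Matrix.det_fin_two_of]
      linear_combination hdet + (g 1 0) * he⟩, rfl, rfl, rfl, rfl⟩
  refine ⟨g', h10, h11, ?_⟩
  ext i j
  fin_cases i <;> fin_cases j <;>
    simp [hp, Matrix.mul_apply, Fin.sum_univ_two, h00, h01, h10, h11]
  all_goals first
    | (have := congrArg (Int.cast : ℤ → ℝ) he; push_cast at this ⊢; linear_combination this)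
    | (have := congrArg (Int.cast : ℤ → ℝ) he; push_cast at this ⊢; linear_combination -this)
    | ring1

theorem heckeMatrix_mul_of_eq' (g : SL(2, ℤ)) (j : ℕ) (e : ℤ)
    (he : g 0 0 + j * g 1 0 = p * e) :
    ∃ g' : SL(2, ℤ), g' 1 0 = g 1 0 ∧ g' 1 1 = p * g 1 1 ∧
      heckeMatrix p j * mapGL ℝ g = mapGL ℝ g' * heckeDiagMatrix p := by
  have hdet := det_eq g
  obtain ⟨g', h00, h01, h10, h11⟩ : ∃ g' : SL(2, ℤ), g' 0 0 = e ∧ g' 0 1 = g 0 1 + j * g 1 1 ∧
      g' 1 0 = g 1 0 ∧ g' 1 1 = p * g 1 1 :=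
    ⟨⟨!![e, g 0 1 + j * g 1 1; g 1 0, p * g 1 1], by
      rw [Matrix.det_fin_two_of]
      linear_combination hdet - (g 1 1) * he⟩, rfl, rfl, rfl, rfl⟩
  refine ⟨g', h10, h11, ?_⟩
  ext i j
  fin_cases i <;> fin_cases j <;>
    simp [hp, Matrix.mul_apply, Fin.sum_univ_two, h00, h01, h10, h11]
  all_goals first
    | (have := congrArg (Int.cast : ℤ → ℝ) he; push_cast at this ⊢; linear_combination this)
    | (have := congrArg (Int.cast : ℤ → ℝ) he; push_cast at this ⊢; linear_combination -this)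
    | ring1

theorem heckeDiagMatrix_mul_of_eq (g : SL(2, ℤ)) (j' : ℕ) (e : ℤ)
    (he : g 1 1 = g 1 0 * j' + p * e) :
    ∃ g' : SL(2, ℤ), g' 1 0 = g 1 0 ∧ g' 1 1 = e ∧
      heckeDiagMatrix p * mapGL ℝ g = mapGL ℝ g' * heckeMatrix p j' := by
  have hdet := det_eq g
  obtain ⟨g', h00, h01, h10, h11⟩ : ∃ g' : SL(2, ℤ), g' 0 0 = p * g 0 0 ∧ g' 0 1 = g 0 1 - g 0 0 * j' ∧
      g' 1 0 = g 1 0 ∧ g' 1 1 = e :=
    ⟨⟨!![p * g 0 0, g 0 1 - g 0 0 * j'; g 1 0, e], by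
      rw [Matrix.det_fin_two_of]
      linear_combination hdet - (g 0 0) * he⟩, rfl, rfl, rfl, rfl⟩
  refine ⟨g', h10, h11, ?_⟩
  ext i j
  fin_cases i <;> fin_cases j <;>
    simp [hp, Matrix.mul_apply, Fin.sum_univ_two, h00, h01, h10, h11]
  all_goals first
    | (have := congrArg (Int.cast : ℤ → ℝ) he; push_cast at this ⊢; linear_combination this)
    | (have := congrArg (Int.cast : ℤ → ℝ) he; push_cast at this ⊢; linear_combination -this)
    | ring1

theorem heckeDiagMatrix_mul_of_eq' (g : SL(2, ℤ)) (e : ℤ) (he : g 1 0 = p * e) :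
    ∃ g' : SL(2, ℤ), g' 1 0 = e ∧ g' 1 1 = g 1 1 ∧
      heckeDiagMatrix p * mapGL ℝ g = mapGL ℝ g' * heckeDiagMatrix p := by
  have hdet := det_eq g
  obtain ⟨g', h00, h01, h10, h11⟩ : ∃ g' : SL(2, ℤ), g' 0 0 = g 0 0 ∧ g' 0 1 = p * g 0 1 ∧
      g' 1 0 = e ∧ g' 1 1 = g 1 1 :=
    ⟨⟨!![g 0 0, p * g 0 1; e, g 1 1], by
      rw [Matrix.det_fin_two_of]
      linear_combination hdet + (g 0 1) * he⟩, rfl, rfl, rfl, rfl⟩
  refine ⟨g', h10, h11, ?_⟩
  ext i j
  fin_cases i <;> fin_cases j <;>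
    simp [hp, Matrix.mul_apply, Fin.sum_univ_two, h00, h01, h10, h11]
  all_goals first
    | (have := congrArg (Int.cast : ℤ → ℝ) he; push_cast at this ⊢; linear_combination this)
    | (have := congrArg (Int.cast : ℤ → ℝ) he; push_cast at this ⊢; linear_combination -this)
    | ring1

end commutation

/-- products in `Γ₀(M)`: lower left entry and lower right entry mod `M`. -/
theorem mul_entries {M : ℕ} {A B : SL(2, ℤ)} (hA : (M : ℤ) ∣ A 1 0) (hB : (M : ℤ) ∣ B 1 0) :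
    (M : ℤ) ∣ (A * B) 1 0 ∧
      (((A * B) 1 1 : ℤ) : ZMod M) = ((A 1 1 : ℤ) : ZMod M) * ((B 1 1 : ℤ) : ZMod M) := by
  have h10 : (A * B) 1 0 = A 1 0 * B 0 0 + A 1 1 * B 1 0 := by
    rw [Matrix.SpecialLinearGroup.coe_mul, Matrix.mul_apply, Fin.sum_univ_two]
  have h11 : (A * B) 1 1 = A 1 0 * B 0 1 + A 1 1 * B 1 1 := by
    rw [Matrix.SpecialLinearGroup.coe_mul, Matrix.mul_apply, Fin.sum_univ_two]
  have hA0 : ((A 1 0 : ℤ) : ZMod M) = 0 := (ZMod.intCast_zmod_eq_zero_iff_dvd _ _).2 hA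
  refine ⟨?_, ?_⟩
  · rw [h10]
    exact dvd_add (Dvd.dvd.mul_right hA _) (Dvd.dvd.mul_left hB _)
  · rw [h11]
    push_cast
    rw [hA0, zero_mul, zero_add]

end Coset

/-- **Coset computation.** -/
theorem heckeRep_mul_wt {M p : ℕ} [Fact p.Prime] (hpM : ¬ p ∣ M) (g : SL(2, ℤ))
    (hg : (M : ℤ) ∣ g 1 0) (x : OnePoint (ZMod p)) :
    ∃ g' : SL(2, ℤ), (M : ℤ) ∣ g' 1 0 ∧
      wt M p x * ((g' 1 1 : ℤ) : ZMod M) = ((g 1 1 : ℤ) : ZMod M) * wt M p (redMatrix p g • x) ∧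
      heckeRep p x * mapGL ℝ g = mapGL ℝ g' * heckeRep p (redMatrix p g • x) := by
  have hp : p ≠ 0 := (Fact.out : p.Prime).ne_zero
  have hM : ((g 1 0 : ℤ) : ZMod M) = 0 := (ZMod.intCast_zmod_eq_zero_iff_dvd _ _).2 hg
  induction x using OnePoint.rec with
  | infty =>
    rw [OnePoint.smul_infty_eq_ite]
    by_cases hc : ((g 1 0 : ℤ) : ZMod p) = 0
    · rw [if_pos (by simpa using hc), heckeRep_infty]
      obtain ⟨e, he⟩ := (ZMod.intCast_zmod_eq_zero_iff_dvd _ _).mp hc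
      obtain ⟨g', hg', hg'', hmul⟩ := Coset.heckeDiagMatrix_mul_of_eq' hp g e he
      refine ⟨g', ?_, ?_, hmul⟩
      · rw [hg']
        have hcop : IsCoprime (M : ℤ) (p : ℤ) :=
          Nat.isCoprime_iff_coprime.mpr ((Nat.Prime.coprime_iff_not_dvd Fact.out).mpr hpM).symm
        exact hcop.dvd_of_dvd_mul_left (he ▸ hg)
      · rw [hg'', wt_infty, mul_comm]
    · rw [if_neg (by simpa using hc), heckeRep_infty, heckeRep_coe]
      set y : ZMod p := redMatrix p g 0 0 / redMatrix p g 1 0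
        with hy
      obtain ⟨e, he⟩ : (p : ℤ) ∣ g 1 1 - g 1 0 * y.val := by
        rw [← ZMod.intCast_zmod_eq_zero_iff_dvd]
        push_cast
        rw [ZMod.natCast_zmod_val, hy, redMatrix_apply_zero_zero, redMatrix_apply_one_zero,
          mul_div_cancel₀ _ hc, sub_self]
      obtain ⟨g', hg', hg'', hmul⟩ :=
        Coset.heckeDiagMatrix_mul_of_eq hp g y.val e (by linear_combination he)
      refine ⟨g', hg' ▸ hg, ?_, hmul⟩
      rw [hg'', wt_infty, wt_coe, mul_one]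
      have h1 := congrArg (Int.cast : ℤ → ZMod M) he
      push_cast at h1
      rw [hM, zero_mul, sub_zero] at h1
      exact h1.symm
  | coe j =>
    rw [OnePoint.smul_some_eq_ite]
    by_cases h : redMatrix p g 1 0 * j + redMatrix p g 1 1 = 0
    · rw [if_pos h, heckeRep_infty, heckeRep_coe]
      rw [redMatrix_apply_one_zero, redMatrix_apply_one_one] at h
      obtain ⟨e, he⟩ : (p : ℤ) ∣ g 0 0 + j.val * g 1 0 := by
        rw [← ZMod.intCast_zmod_eq_zero_iff_dvd]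
        push_cast
        rw [ZMod.natCast_zmod_val]
        linear_combination h
      obtain ⟨g', hg', hg'', hmul⟩ := Coset.heckeMatrix_mul_of_eq' hp g j.val e he
      refine ⟨g', hg' ▸ hg, ?_, hmul⟩
      rw [hg'', wt_infty, wt_coe, one_mul]
      push_cast
      rw [mul_comm]
    · rw [if_neg h, heckeRep_coe, heckeRep_coe]
      set y : ZMod p := (redMatrix p g 0 0 * j + redMatrix p g 0 1) /
        (redMatrix p g 1 0 * j + redMatrix p g 1 1) with hy
      obtain ⟨e, he⟩ : (p : ℤ) ∣ g 0 1 + j.val * g 1 1 - y.val * (g 0 0 + j.val * g 1 0) := by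
        rw [← ZMod.intCast_zmod_eq_zero_iff_dvd]
        push_cast
        rw [ZMod.natCast_zmod_val, ZMod.natCast_zmod_val,
          show ((g 0 0 : ℤ) : ZMod p) + j * ((g 1 0 : ℤ) : ZMod p)
            = redMatrix p g 1 0 * j + redMatrix p g 1 1 by
              rw [redMatrix_apply_one_zero, redMatrix_apply_one_one]; ring,
          hy, div_mul_cancel₀ _ h, redMatrix_apply_zero_zero, redMatrix_apply_zero_one]
        ring
      obtain ⟨g', hg', hg'', hmul⟩ :=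
        Coset.heckeMatrix_mul_of_eq hp g j.val y.val e (by linear_combination he)
      refine ⟨g', hg' ▸ dvd_mul_of_dvd_right hg _, ?_, hmul⟩
      rw [hg'', wt_coe, wt_coe, one_mul, mul_one]
      push_cast
      rw [hM, zero_mul, sub_zero]

/-- The function-level Hecke operator for `Γ₁(M)`; `γp ∈ Γ₀(M)` has lower right entry `≡ p`. -/
noncomputable def heckeFun (k : ℤ) (p : ℕ) (γp : SL(2, ℤ)) (f : ℍ → ℂ) : ℍ → ℂ :=
  heckeU k p f + (f ∣[k] (mapGL ℝ γp)) ∣[k] heckeDiagMatrix p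

/-- **Equivariance**: for `γ ∈ Γ₀(M)`, `(T_p f) ∣ γ = T_p (f ∣ γ)`. -/
theorem heckeFun_slash {M p : ℕ} (hp : p.Prime) (hpM : ¬ p ∣ M) (k : ℤ) {f : ℍ → ℂ}
    (hf : ∀ δ ∈ Gamma1 M, f ∣[k] (mapGL ℝ δ) = f) {γp : SL(2, ℤ)} (hγp : (M : ℤ) ∣ γp 1 0)
    (hγp' : ((γp 1 1 : ℤ) : ZMod M) = p) {γ : SL(2, ℤ)} (hγ : (M : ℤ) ∣ γ 1 0) :
    heckeFun k p γp f ∣[k] (mapGL ℝ γ) = heckeFun k p γp (f ∣[k] (mapGL ℝ γ)) := by
  have : Fact p.Prime := ⟨hp⟩
  let c : OnePoint (ZMod p) → SL(2, ℤ) := fun x => x.elim γp (fun _ => 1)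
  have hc10 : ∀ x, (M : ℤ) ∣ c x 1 0 := by
    intro x
    induction x using OnePoint.rec with
    | infty => exact hγp
    | coe j => exact ⟨0, by simp [c]⟩
  have hc11 : ∀ x, ((c x 1 1 : ℤ) : ZMod M) = wt M p x := by
    intro x
    induction x using OnePoint.rec with
    | infty => exact hγp'
    | coe j => simp [c]
  have hsum : ∀ F : ℍ → ℂ, heckeFun k p γp F =
      ∑ x : OnePoint (ZMod p), (F ∣[k] (mapGL ℝ (c x))) ∣[k] heckeRep p x := by
    intro F
    unfold heckeFun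
    rw [heckeU_eq_sum_zmod, add_comm]
    refine Eq.trans ?_ (Fintype.sum_option
      (fun x : OnePoint (ZMod p) ↦ (F ∣[k] (mapGL ℝ (c x))) ∣[k] heckeRep p x)).symm
    congr 1
    refine Finset.sum_congr rfl fun j _ => ?_
    show F ∣[k] heckeMatrix p j.val = (F ∣[k] (mapGL ℝ (1 : SL(2, ℤ)))) ∣[k] heckeMatrix p j.val
    rw [map_one, SlashAction.slash_one]
  rw [hsum f, hsum (f ∣[k] (mapGL ℝ γ)), SlashAction.sum_slash]
  rw [← Equiv.sum_comp (MulAction.toPerm (redMatrix p γ))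
    (fun x ↦ ((f ∣[k] (mapGL ℝ γ)) ∣[k] (mapGL ℝ (c x))) ∣[k] heckeRep p x)]
  refine Finset.sum_congr rfl fun x _ => ?_
  obtain ⟨g', hg', hwt, hmul⟩ := heckeRep_mul_wt hpM γ hγ x
  rw [MulAction.toPerm_apply, ← SlashAction.slash_mul, hmul, SlashAction.slash_mul]
  congr 1
  rw [← SlashAction.slash_mul, ← SlashAction.slash_mul, ← map_mul, ← map_mul]
  obtain ⟨h1, h2⟩ := Coset.mul_entries (hc10 x) hg'
  obtain ⟨h3, h4⟩ := Coset.mul_entries hγ (hc10 (redMatrix p γ • x))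
  refine slash_eq_of_lowerRight hf h1 h3 ?_
  rw [h2, h4, hc11, hc11, hwt]

end Fermat.Agent.S48.H
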