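import Fermat.Agent.S48.H.Basic

/-!
# S48 / H : diamond operators on `S_k(Γ₁(M))`

`diamond k d f = f ∣[k] γ` for any `γ ∈ Γ₀(M)` with lower right entry `≡ d (mod M)`.
-/

set_option autoImplicit false

namespace Fermat.Agent.S48.H

open UpperHalfPlane ModularForm Matrix.SpecialLinearGroup CongruenceSubgroup
open scoped MatrixGroups Manifold

/-- For every unit `d` mod `M` and every `r` prime to `M`... in fact for every `r ≠ 0`: there is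
`γ ∈ SL₂(ℤ)` with `M r ∣ γ₁₀` and `γ₁₁ ≡ d (mod M)`. -/
theorem exists_gamma0 (M : ℕ) [NeZero M] (d : (ZMod M)ˣ) (r : ℕ) (hr : r ≠ 0) :
    ∃ γ : SL(2, ℤ), ((M * r : ℕ) : ℤ) ∣ γ 1 0 ∧ ((γ 1 1 : ℤ) : ZMod M) = d := by
  have : NeZero (M * r) := ⟨mul_ne_zero (NeZero.ne M) hr⟩
  have h : M ∣ M * r := dvd_mul_right M r
  obtain ⟨d', hd'⟩ := ZMod.unitsMap_surjective h d
  have hcop : Nat.Coprime (d' : ZMod (M * r)).val (M * r) := ZMod.val_coe_unit_coprime d'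
  have hic : IsCoprime (((d' : ZMod (M * r)).val : ℤ)) ((M * r : ℕ) : ℤ) :=
    Nat.isCoprime_iff_coprime.mpr hcop
  obtain ⟨a, b, hab⟩ := hic
  refine ⟨⟨!![a, -b; ((M * r : ℕ) : ℤ), ((d' : ZMod (M * r)).val : ℤ)], ?_⟩, ?_, ?_⟩
  · rw [Matrix.det_fin_two_of]; linarith
  · exact dvd_refl _
  · rw [← hd', ZMod.unitsMap_val]
    simp

theorem Diamond_det {M : ℕ} (γ : SL(2, ℤ)) :
    ((γ 0 0 : ℤ) : ZMod M) * ((γ 1 1 : ℤ) : ZMod M) - ((γ 0 1 : ℤ) : ZMod M) * ((γ 1 0 : ℤ) : ZMod M)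
      = 1 := by
  have h := γ.det_coe
  rw [Matrix.det_fin_two] at h
  have := congrArg (Int.cast : ℤ → ZMod M) h
  push_cast at this
  exact this

theorem Diamond_inv (γ : SL(2, ℤ)) :
    (γ⁻¹ : SL(2, ℤ)) 0 0 = γ 1 1 ∧ (γ⁻¹ : SL(2, ℤ)) 0 1 = - γ 0 1 ∧
    (γ⁻¹ : SL(2, ℤ)) 1 0 = - γ 1 0 ∧ (γ⁻¹ : SL(2, ℤ)) 1 1 = γ 0 0 := by
  simp [Matrix.SpecialLinearGroup.coe_inv, Matrix.adjugate_fin_two]

theorem Diamond_mem_Gamma0 {M : ℕ} {γ : SL(2, ℤ)} : γ ∈ Gamma0 M ↔ (M : ℤ) ∣ γ 1 0 := by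
  rw [Gamma0_mem, ZMod.intCast_zmod_eq_zero_iff_dvd]

theorem Diamond_mul_inv_mem_Gamma1 {M : ℕ} {γ γ' : SL(2, ℤ)} (hγ : γ ∈ Gamma0 M)
    (hγ' : γ' ∈ Gamma0 M)
    (h : ((γ 1 1 : ℤ) : ZMod M) = ((γ' 1 1 : ℤ) : ZMod M)) : γ * γ'⁻¹ ∈ Gamma1 M := by
  rw [Gamma0_mem] at hγ hγ'
  have h1 := Diamond_det (M := M) γ
  have h2 := Diamond_det (M := M) γ'
  rw [hγ] at h1
  rw [hγ'] at h2
  obtain ⟨i1, i2, i3, i4⟩ := Diamond_inv γ'
  rw [Gamma1_mem]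
  simp only [Matrix.SpecialLinearGroup.coe_mul, Matrix.mul_apply, Fin.sum_univ_two, i1, i2, i3, i4]
  push_cast
  refine ⟨?_, ?_, ?_⟩
  · rw [hγ', ← h]; linear_combination h1
  · rw [hγ, h]; linear_combination h2
  · rw [hγ, hγ']; ring

/-- `(γ γ')₁₁ ≡ γ₁₁ γ'₁₁ mod M` on `Γ₀(M)`. -/
theorem Diamond_mul_apply_one_one {M : ℕ} {γ γ' : SL(2, ℤ)} (hγ : γ ∈ Gamma0 M) :
    (((γ * γ') 1 1 : ℤ) : ZMod M) = ((γ 1 1 : ℤ) : ZMod M) * ((γ' 1 1 : ℤ) : ZMod M) := by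
  rw [Gamma0_mem] at hγ
  simp only [Matrix.SpecialLinearGroup.coe_mul, Matrix.mul_apply, Fin.sum_univ_two]
  push_cast
  rw [hγ]; ring

theorem Diamond_conj_mem_Gamma1 {M : ℕ} {γ g : SL(2, ℤ)} (hγ : γ ∈ Gamma0 M) (hg : g ∈ Gamma1 M) :
    γ * g * γ⁻¹ ∈ Gamma1 M := by
  apply Diamond_mul_inv_mem_Gamma1 (mul_mem hγ (Gamma1_in_Gamma0 M hg)) hγ
  rw [Diamond_mul_apply_one_one hγ, ((Gamma1_mem M g).mp hg).2.1, mul_one]

/-- A function invariant under `Γ₁(M)` has the same slash by two elements of `Γ₀(M)` with the same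
lower right entry mod `M`. -/
theorem slash_eq_of_lowerRight {M : ℕ} {k : ℤ} {f : ℍ → ℂ}
    (hf : ∀ δ ∈ Gamma1 M, f ∣[k] (mapGL ℝ δ) = f) {A B : SL(2, ℤ)}
    (hA : (M : ℤ) ∣ A 1 0) (hB : (M : ℤ) ∣ B 1 0)
    (hAB : ((A 1 1 : ℤ) : ZMod M) = ((B 1 1 : ℤ) : ZMod M)) :
    f ∣[k] (mapGL ℝ A) = f ∣[k] (mapGL ℝ B) := by
  have h1 : A = (A * B⁻¹) * B := by group
  have h2 : mapGL ℝ A = mapGL ℝ (A * B⁻¹) * mapGL ℝ B := by
    rw [← map_mul, ← h1]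
  rw [h2, SlashAction.slash_mul,
    hf _ (Diamond_mul_inv_mem_Gamma1 (Diamond_mem_Gamma0.mpr hA) (Diamond_mem_Gamma0.mpr hB) hAB)]

/-- `Γ₀(M)` normalises `Γ₁(M)`. -/
theorem conj_mem_G1 {M : ℕ} {γ : SL(2, ℤ)} (hγ : (M : ℤ) ∣ γ 1 0) :
    ∀ δ ∈ G1 M, mapGL ℝ γ * δ * (mapGL ℝ γ)⁻¹ ∈ G1 M := by
  rintro _ ⟨g, hg, rfl⟩
  refine ⟨γ * g * γ⁻¹, Diamond_conj_mem_Gamma1 (Diamond_mem_Gamma0.mpr hγ) hg, ?_⟩
  rw [map_mul, map_mul, map_inv]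

/-- A chosen matrix in `Γ₀(M)` with lower right entry `d`. -/
noncomputable def diaMat (M : ℕ) [NeZero M] (d : (ZMod M)ˣ) : SL(2, ℤ) :=
  (exists_gamma0 M d 1 one_ne_zero).choose

theorem diaMat_dvd (M : ℕ) [NeZero M] (d : (ZMod M)ˣ) : (M : ℤ) ∣ diaMat M d 1 0 := by
  have h : ((M * 1 : ℕ) : ℤ) ∣ diaMat M d 1 0 := (exists_gamma0 M d 1 one_ne_zero).choose_spec.1
  rwa [mul_one] at h

theorem diaMat_lowerRight (M : ℕ) [NeZero M] (d : (ZMod M)ˣ) :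
    ((diaMat M d 1 1 : ℤ) : ZMod M) = d :=
  (exists_gamma0 M d 1 one_ne_zero).choose_spec.2

/-- The diamond operator `⟨d⟩` on `S_k(Γ₁(M))`. -/
noncomputable def diamond {M : ℕ} [NeZero M] (k : ℤ) (d : (ZMod M)ˣ) :
    CuspForm (Gamma1 M) k →ₗ[ℂ] CuspForm (Gamma1 M) k :=
  slashTo k (mapGL ℝ (diaMat M d)) (by simp) (conj_mem_G1 (diaMat_dvd M d))

theorem Diamond_slash_invariant {M : ℕ} {k : ℤ} (f : CuspForm (Gamma1 M) k) :
    ∀ δ ∈ Gamma1 M, ⇑f ∣[k] (mapGL ℝ δ) = ⇑f := fun _ hδ =>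
  SlashInvariantFormClass.slash_action_eq f _ (Subgroup.mem_map_of_mem _ hδ)

/-- **The formula to use**: `⟨d⟩ f = f ∣[k] γ` for ANY `γ ∈ Γ₀(M)` with `γ₁₁ ≡ d`. -/
theorem coe_diamond {M : ℕ} [NeZero M] (k : ℤ) (d : (ZMod M)ˣ) (f : CuspForm (Gamma1 M) k)
    {γ : SL(2, ℤ)} (hγ : (M : ℤ) ∣ γ 1 0) (hd : ((γ 1 1 : ℤ) : ZMod M) = d) :
    ⇑(diamond k d f) = ⇑f ∣[k] (mapGL ℝ γ) := by
  rw [diamond, coe_slashTo]
  exact slash_eq_of_lowerRight (Diamond_slash_invariant f) (diaMat_dvd M d) hγ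
    ((diaMat_lowerRight M d).trans hd.symm)

theorem diamond_one {M : ℕ} [NeZero M] (k : ℤ) :
    diamond (M := M) k 1 = LinearMap.id := by
  ext1 f
  apply DFunLike.coe_injective
  rw [coe_diamond k 1 f (γ := 1) (by simp) (by simp), map_one, SlashAction.slash_one]
  rfl

theorem diamond_mul {M : ℕ} [NeZero M] (k : ℤ) (d e : (ZMod M)ˣ) :
    diamond k (d * e) = diamond k d ∘ₗ diamond k e := by
  ext1 f
  apply DFunLike.coe_injective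
  have hd := diaMat_dvd M d
  have he := diaMat_dvd M e
  rw [LinearMap.comp_apply, coe_diamond k d _ hd (diaMat_lowerRight M d),
    coe_diamond k e f he (diaMat_lowerRight M e), ← SlashAction.slash_mul, ← map_mul,
    coe_diamond k (d * e) f (γ := diaMat M e * diaMat M d)
      (Diamond_mem_Gamma0.mp (mul_mem (Diamond_mem_Gamma0.mpr he) (Diamond_mem_Gamma0.mpr hd)))]
  rw [Diamond_mul_apply_one_one (Diamond_mem_Gamma0.mpr he), diaMat_lowerRight, diaMat_lowerRight,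
    Units.val_mul, mul_comm]

theorem diamond_comm {M : ℕ} [NeZero M] (k : ℤ) (d e : (ZMod M)ˣ) (f : CuspForm (Gamma1 M) k) :
    diamond k d (diamond k e f) = diamond k e (diamond k d f) := by
  rw [← LinearMap.comp_apply, ← diamond_mul, mul_comm, diamond_mul, LinearMap.comp_apply]

theorem diamond_injective {M : ℕ} [NeZero M] (k : ℤ) (d : (ZMod M)ˣ) :
    Function.Injective (diamond (M := M) k d) := by
  intro f g h
  have := congrArg (diamond k d⁻¹) h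
  simpa [← LinearMap.comp_apply, ← diamond_mul, diamond_one] using this

/-- Compatibility with raising the level. -/
theorem diamond_levelUp {N M : ℕ} [NeZero N] [NeZero M] (h : N ∣ M) (k : ℤ) (d : (ZMod M)ˣ)
    (f : CuspForm (Gamma1 N) k) :
    diamond k d (levelUp h k f) = levelUp h k (diamond k (ZMod.unitsMap h d) f) := by
  apply DFunLike.coe_injective
  have hd := diaMat_dvd M d
  rw [coe_diamond k d _ hd (diaMat_lowerRight M d), coe_levelUp, coe_levelUp,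
    coe_diamond k (ZMod.unitsMap h d) f (γ := diaMat M d) ((Int.natCast_dvd_natCast.mpr h).trans hd)]
  rw [ZMod.unitsMap_val, ← diaMat_lowerRight M d]
  have : CharP (ZMod N) N := ZMod.charP N
  rw [ZMod.cast_intCast h]

end Fermat.Agent.S48.H
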